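import Fermat.Agent.S05.H65.Core
import Fermat.Agent.S05.H65.Sym
import Fermat.Agent.S05.H27.C2
import Fermat.Agent.S05.H27.OfValuation

section MergeWrap_S05_H65_Dbl -- from S05/H65/Dbl.lean

/-!
# The component function near a node: doubling
-/

set_option autoImplicit false

namespace S05H65

namespace AVal

variable {K : Type*} [Field K] {G : Type*} [AddCommGroup G] [LinearOrder G] [IsOrderedAddMonoid G]
variable {V : AVal K G} {δ b₀ : K} {h : G}

/-- Doubling: if `r · 4(ξ²-δ²)(ξ+b₀) = (ξ²+δ²)² + 4δ²b₀(2ξ+b₀)` and the denominator is nonzero,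
then `cl r = min (2a) (2h - 2a)` where `a = cl ξ`. -/
theorem dbl_rel (C : V.Core δ b₀ h) {ξ r : K}
    (hden : (ξ ^ 2 - δ ^ 2) * (ξ + b₀) ≠ 0)
    (hr : r * (4 * (ξ ^ 2 - δ ^ 2) * (ξ + b₀))
      = (ξ ^ 2 + δ ^ 2) ^ 2 + 4 * δ ^ 2 * b₀ * (2 * ξ + b₀)) :
    V.cl h r = min (V.cl h ξ + V.cl h ξ) (h + h - V.cl h ξ - V.cl h ξ) := by
  have hh := C.hh
  have hd1 : ξ ^ 2 - δ ^ 2 ≠ 0 := left_ne_zero_of_mul hden
  have hd2 : ξ + b₀ ≠ 0 := right_ne_zero_of_mul hden
  have hden' : 4 * (ξ ^ 2 - δ ^ 2) * (ξ + b₀) ≠ 0 :=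
    mul_ne_zero (mul_ne_zero C.ex_four.1 hd1) hd2
  have hre : r = ((ξ ^ 2 + δ ^ 2) ^ 2 + 4 * δ ^ 2 * b₀ * (2 * ξ + b₀))
      / (4 * (ξ ^ 2 - δ ^ 2) * (ξ + b₀)) := by
    rw [← hr, mul_div_cancel_right₀ _ hden']
  rcases regime V h ξ with ⟨α, h1, hα⟩ | ⟨α, h1, hα, hα'⟩ | h1
  · -- L
    have hsq : V.Ex (ξ ^ 2) (α + α) := h1.sq
    have hE1 : V.Ex (ξ ^ 2 - δ ^ 2) (α + α) := hsq.sub_gt (C.ex_δsq.gt' (by grind))
    have hE3 : V.Ex (ξ ^ 2 + δ ^ 2) (α + α) := hsq.add_gt (C.ex_δsq.gt' (by grind))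
    have hE4ge : V.Ge (ξ + b₀) α := h1.ge.add (C.hb₀.ge' hα)
    have hE4 : V.Ex (ξ + b₀) (V.w (ξ + b₀)) := ex_of_ne hd2
    have hE4le := hE4ge.le_of_ne hd2
    have hE5 : V.Ge (2 * ξ + b₀) α :=
      ((C.h2.mul h1).ge' (by grind)).add (C.hb₀.ge' hα)
    have hden : V.Ex (4 * (ξ ^ 2 - δ ^ 2) * (ξ + b₀)) (0 + (α + α) + V.w (ξ + b₀)) :=
      (C.ex_four.mul hE1).mul hE4
    have hnum : V.Ex ((ξ ^ 2 + δ ^ 2) ^ 2 + 4 * δ ^ 2 * b₀ * (2 * ξ + b₀))
        (α + α + (α + α)) :=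
      hE3.sq.add_gt ((C.ex_coef.mul_ge hE5).gt (by grind))
    have hrr := hnum.div hden
    rw [← hre] at hrr
    rw [cl_of_notM hh (hrr.notM (by grind)), cl_of_ex h1]
    grind
  · -- M
    have g1 : V.Gt ξ 0 := h1.gt' hα
    have hsq : V.Ex (ξ ^ 2) (α + α) := h1.sq
    have hE1 : V.Ex (ξ ^ 2 - δ ^ 2) (α + α) := hsq.sub_gt (C.ex_δsq.gt' (by grind))
    have hE3 : V.Ex (ξ ^ 2 + δ ^ 2) (α + α) := hsq.add_gt (C.ex_δsq.gt' (by grind))
    have hE4 : V.Ex (ξ + b₀) 0 := C.hb₀.gt_add g1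
    have hE5 : V.Ex (2 * ξ + b₀) 0 := C.hb₀.gt_add ((C.h2.mul h1).gt' (by grind))
    have hden : V.Ex (4 * (ξ ^ 2 - δ ^ 2) * (ξ + b₀)) (0 + (α + α) + 0) :=
      (C.ex_four.mul hE1).mul hE4
    have h2nd : V.Ex (4 * δ ^ 2 * b₀ * (2 * ξ + b₀)) (h + h + 0) := C.ex_coef.mul hE5
    rcases lt_trichotomy (α + α) h with hlt | heq | hgt
    · have hnum : V.Ex ((ξ ^ 2 + δ ^ 2) ^ 2 + 4 * δ ^ 2 * b₀ * (2 * ξ + b₀))
          (α + α + (α + α)) := hE3.sq.add_gt (h2nd.gt' (by grind))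
      have hrr := hnum.div hden
      rw [← hre] at hrr
      rw [cl_of_ex hrr, cl_of_ex h1]
      grind
    · have hnum : V.Ge ((ξ ^ 2 + δ ^ 2) ^ 2 + 4 * δ ^ 2 * b₀ * (2 * ξ + b₀)) (h + h) :=
        (hE3.sq.ge' (by grind)).add (h2nd.ge' (by grind))
      have hrr := hnum.div hden
      rw [← hre] at hrr
      rw [cl_of_ge hh (hrr.mono (by grind)), cl_of_ex h1]
      grind
    · have hnum : V.Ex ((ξ ^ 2 + δ ^ 2) ^ 2 + 4 * δ ^ 2 * b₀ * (2 * ξ + b₀)) (h + h + 0) :=
        h2nd.gt_add (hE3.sq.gt' (by grind))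
      have hrr := hnum.div hden
      rw [← hre] at hrr
      rw [cl_of_ex hrr, cl_of_ex h1]
      grind
  · -- R
    have g1 : V.Gt ξ 0 := h1.gt hh
    have hE1ge : V.Ge (ξ ^ 2 - δ ^ 2) (h + h) := h1.sq.sub C.ex_δsq.ge
    have hE1 : V.Ex (ξ ^ 2 - δ ^ 2) (V.w (ξ ^ 2 - δ ^ 2)) := ex_of_ne hd1
    have hE1le := hE1ge.le_of_ne hd1
    have hE3 : V.Ge (ξ ^ 2 + δ ^ 2) (h + h) := h1.sq.add C.ex_δsq.ge
    have hE4 : V.Ex (ξ + b₀) 0 := C.hb₀.gt_add g1
    have hE5 : V.Ex (2 * ξ + b₀) 0 := C.hb₀.gt_add ((C.h2.ge.mul_gt g1).mono (by grind))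
    have hden : V.Ex (4 * (ξ ^ 2 - δ ^ 2) * (ξ + b₀)) (0 + V.w (ξ ^ 2 - δ ^ 2) + 0) :=
      (C.ex_four.mul hE1).mul hE4
    have h2nd : V.Ex (4 * δ ^ 2 * b₀ * (2 * ξ + b₀)) (h + h + 0) := C.ex_coef.mul hE5
    have hnum : V.Ex ((ξ ^ 2 + δ ^ 2) ^ 2 + 4 * δ ^ 2 * b₀ * (2 * ξ + b₀)) (h + h + 0) :=
      h2nd.gt_add (hE3.sq.gt (by grind))
    have hrr := hnum.div hden
    rw [← hre] at hrr
    rw [cl_of_notM hh (hrr.notM (by grind)), cl_of_ge hh h1]
    grind

end AVal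

end S05H65
end MergeWrap_S05_H65_Dbl

section MergeWrap_S05_H65_Rho -- from S05/H65/Rho.lean

/-!
# The component function `rho` on points of a nodal Weierstrass model
-/

set_option autoImplicit false

namespace S05H65

open WeierstrassCurve

section XiFormulas

variable {K : Type*} [Field K] [DecidableEq K] [CharZero K] {W : WeierstrassCurve.Affine K}

/-- The shifted and scaled x-coordinate `ξ = 4x - s`. -/
def xi (s : K) (P : W.Point) : K := 4 * px P - s

omit [CharZero K] in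
@[simp] lemma xi_neg (s : K) (P : W.Point) : xi s (-P) = xi s P := by simp [xi]

/-- Hypotheses linking the curve to the nodal normal form `16ψ₂² = (ξ² - d²)(ξ + b)`. -/
structure NodalEq (W : WeierstrassCurve.Affine K) (s d b : K) : Prop where
  hb₂ : W.b₂ = b - 3 * s
  hb₄ : 8 * W.b₄ = 3 * s ^ 2 - 2 * s * b - d ^ 2
  hb₆ : 16 * W.b₆ = (s ^ 2 - d ^ 2) * (b - s)

variable {s d b : K} (N : NodalEq W s d b)
include N

lemma NodalEq.b₄_eq : W.b₄ = (3 * s ^ 2 - 2 * s * b - d ^ 2) / 8 := by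
  have := N.hb₄
  field_simp
  linear_combination this

lemma NodalEq.b₆_eq : W.b₆ = (s ^ 2 - d ^ 2) * (b - s) / 16 := by
  have := N.hb₆
  field_simp
  linear_combination this

lemma NodalEq.b₈_eq : W.b₈ = (W.b₂ * W.b₆ - W.b₄ ^ 2) / 4 := by
  have := W.b_relation
  field_simp
  linear_combination this

lemma NodalEq.psi2sq_eq (x : K) :
    16 * psi2sq W x = ((4 * x - s) ^ 2 - d ^ 2) * (4 * x - s + b) := by
  simp only [psi2sq]
  rw [N.b₄_eq, N.b₆_eq, N.hb₂]
  ring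

lemma NodalEq.dupNum_eq (x : K) :
    256 * dupNum W x - 64 * s * psi2sq W x
      = ((4 * x - s) ^ 2 + d ^ 2) ^ 2 + 4 * d ^ 2 * b * (2 * (4 * x - s) + b) := by
  simp only [psi2sq, dupNum]
  rw [N.b₈_eq, N.b₄_eq, N.b₆_eq, N.hb₂]
  ring

theorem xi_sum {P Q : W.Point} (hP : P ≠ 0) (hQ : Q ≠ 0) (h : px P ≠ px Q) :
    (xi s (P + Q) + xi s (P - Q)) * (xi s P - xi s Q) ^ 2
      = 2 * (xi s P * xi s Q - d ^ 2) * (xi s P + xi s Q + 2 * b) := by
  have h1 := px_add_add_px_sub hP hQ h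
  rw [N.b₄_eq, N.b₆_eq, N.hb₂] at h1
  simp only [xi]
  linear_combination 64 * h1

theorem xi_prod {P Q : W.Point} (hP : P ≠ 0) (hQ : Q ≠ 0) (h : px P ≠ px Q) :
    (xi s (P + Q) * xi s (P - Q)) * (xi s P - xi s Q) ^ 2
      = (xi s P * xi s Q + d ^ 2) ^ 2 + 4 * d ^ 2 * b * (xi s P + xi s Q + b) := by
  have h1 := px_add_add_px_sub hP hQ h
  have h2 := px_add_mul_px_sub hP hQ h
  rw [N.b₈_eq, N.b₄_eq, N.b₆_eq, N.hb₂] at h2
  rw [N.b₄_eq, N.b₆_eq, N.hb₂] at h1
  simp only [xi]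
  linear_combination 256 * h2 - 64 * s * h1

theorem xi_dup {P : W.Point} (hP : P ≠ 0) (h2 : P + P ≠ 0) :
    xi s (P + P) * (4 * (xi s P ^ 2 - d ^ 2) * (xi s P + b))
      = (xi s P ^ 2 + d ^ 2) ^ 2 + 4 * d ^ 2 * b * (2 * xi s P + b) := by
  have h1 := px_add_self hP h2
  have h3 := N.psi2sq_eq (px P)
  have h4 := N.dupNum_eq (px P)
  simp only [xi]
  linear_combination 256 * h1 - 4 * (4 * px (P + P) - s) * h3 + h4

theorem add_self_eq_zero_iff_xi {P : W.Point} (hP : P ≠ 0) :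
    P + P = 0 ↔ (xi s P ^ 2 - d ^ 2) * (xi s P + b) = 0 := by
  rw [add_self_eq_zero_iff hP]
  have h3 := N.psi2sq_eq (px P)
  simp only [xi]
  constructor
  · intro h0
    rw [h0, mul_zero] at h3
    exact h3.symm
  · intro h0
    rw [h0] at h3
    have h16 : (16 : K) ≠ 0 := by norm_num
    exact (mul_eq_zero.mp h3).resolve_left h16

end XiFormulas

end S05H65

namespace S05H65

open WeierstrassCurve

section Rho

variable {K : Type*} [Field K] [DecidableEq K] [CharZero K]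
  {G : Type*} [AddCommGroup G] [LinearOrder G] [IsOrderedAddMonoid G]
  {W : WeierstrassCurve.Affine K} {V : AVal K G} {s d b : K} {h : G}

/-- The component function: `0` on the identity component, otherwise the clamped valuation
of `ξ = 4x - s`. -/
noncomputable def rho (V : AVal K G) (s : K) (h : G) (P : W.Point) : G :=
  if P = 0 then 0 else V.cl h (xi s P)

omit [CharZero K] in
@[simp] lemma rho_zero : rho V s h (0 : W.Point) = 0 := by simp [rho]

omit [CharZero K] in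
lemma rho_of_ne {P : W.Point} (hP : P ≠ 0) : rho V s h P = V.cl h (xi s P) := by
  simp [rho, hP]

omit [CharZero K] in
@[simp] lemma rho_neg (P : W.Point) : rho V s h (-P) = rho V s h P := by
  simp [rho]

omit [CharZero K] in
lemma rho_nonneg (hh : 0 < h) (P : W.Point) : 0 ≤ rho V s h P := by
  unfold rho
  split_ifs
  · exact le_refl _
  · exact AVal.cl_nonneg hh _

omit [CharZero K] in
lemma rho_le (hh : 0 < h) (P : W.Point) : rho V s h P ≤ h := by
  unfold rho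
  split_ifs
  · exact hh.le
  · exact AVal.cl_le hh _

/-- `rho (P + P) = min (2a) (2h - 2a)` where `a = rho P`. -/
theorem rho_dbl (N : NodalEq W s d b) (C : V.Core d b h) (P : W.Point) :
    rho V s h (P + P) = min (rho V s h P + rho V s h P) (h + h - rho V s h P - rho V s h P) := by
  have hh := C.hh
  by_cases hP : P = 0
  · subst hP
    simp only [add_zero, rho_zero]
    grind
  by_cases h2 : P + P = 0
  · rw [h2, rho_zero, rho_of_ne hP]
    have h0 := (add_self_eq_zero_iff_xi N hP).mp h2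
    rcases mul_eq_zero.mp h0 with h1 | h1
    · -- ξ² = d²
      have hex : V.Ex (xi s P ^ 2) (h + h) := by
        have : xi s P ^ 2 = d ^ 2 := sub_eq_zero.mp h1
        rw [this]; exact C.ex_δsq
      have hx0 : xi s P ≠ 0 := by
        intro h0'
        rw [h0'] at hex
        exact hex.1 (by simp)
      have hex' : V.Ex (xi s P) (V.w (xi s P)) := AVal.ex_of_ne hx0
      have := hex'.sq.unique hex
      rw [AVal.cl_of_ex hex']
      grind
    · -- ξ = -b
      have hex : V.Ex (xi s P) 0 := by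
        have : xi s P = -b := eq_neg_of_add_eq_zero_left h1
        rw [this]; exact C.hb₀.neg
      rw [AVal.cl_of_ex hex]
      grind
  · rw [rho_of_ne h2, rho_of_ne hP]
    have hden : (xi s P ^ 2 - d ^ 2) * (xi s P + b) ≠ 0 := fun h0 =>
      h2 ((add_self_eq_zero_iff_xi N hP).mpr h0)
    exact AVal.dbl_rel C hden (xi_dup N hP h2)

/-- The fundamental relation satisfied by the component function. -/
theorem rho_rel (N : NodalEq W s d b) (C : V.Core d b h) (P Q : W.Point) :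
    AVal.Rel h (rho V s h P) (rho V s h Q) (rho V s h (P + Q)) (rho V s h (P - Q)) := by
  have hh := C.hh
  by_cases hP : P = 0
  · subst hP
    have h1 := rho_nonneg (V := V) (s := s) hh Q
    have h2 := rho_le (V := V) (s := s) hh Q
    simp only [zero_add, zero_sub, rho_neg, rho_zero]
    unfold AVal.Rel; grind
  by_cases hQ : Q = 0
  · subst hQ
    have h1 := rho_nonneg (V := V) (s := s) hh P
    have h2 := rho_le (V := V) (s := s) hh P
    simp only [add_zero, sub_zero, rho_zero]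
    unfold AVal.Rel; grind
  by_cases hx : px P = px Q
  · rcases eq_or_eq_neg_of_px_eq hP hQ hx with rfl | rfl
    · have := rho_dbl (V := V) N C P
      rw [sub_self, rho_zero, this]
      unfold AVal.Rel; grind
    · have := rho_dbl (V := V) N C Q
      rw [neg_add_cancel, rho_zero, show -Q - Q = -(Q + Q) by abel, rho_neg, rho_neg, this]
      unfold AVal.Rel; grind
  · have hadd : P + Q ≠ 0 := add_ne_zero_of_px_ne hx hP hQ
    have hsub : P - Q ≠ 0 := sub_ne_zero_of_px_ne hx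
    rw [rho_of_ne hP, rho_of_ne hQ, rho_of_ne hadd, rho_of_ne hsub]
    have hne : xi s P ≠ xi s Q := by
      intro h0
      simp only [xi] at h0
      have h4 : (4 : K) ≠ 0 := by norm_num
      exact hx (mul_left_cancel₀ h4 (sub_left_injective h0))
    exact AVal.main_rel C hne (xi_sum N hP hQ hx) (xi_prod N hP hQ hx)

end Rho

end S05H65
end MergeWrap_S05_H65_Rho

section MergeWrap_S05_H65_Translate -- from S05/H65/Translate.lean

/-!
# (C*): a `p`-torsion point near the node is, up to sign, a translate of a point of the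
identity component by any point `Z` with `ξ(Z) = e^M`.
-/

set_option autoImplicit false

namespace S05H65

open WeierstrassCurve

section

variable {K : Type*} [Field K] [DecidableEq K] [CharZero K]
  {G : Type*} [AddCommGroup G] [LinearOrder G] [IsOrderedAddMonoid G]
  {W : WeierstrassCurve.Affine K} {V : AVal K G} {s d b : K} {h : G}

omit [CharZero K] in
lemma rel_simN {h a b c d' : G} (hr : AVal.Rel h a b c d') :
    (S05H27.SimN (h + h) c (a + b) ∧ S05H27.SimN (h + h) d' (a - b)) ∨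
      (S05H27.SimN (h + h) d' (a + b) ∧ S05H27.SimN (h + h) c (a - b)) := by
  have key1 : ∀ x : G, x = max (a - b) (b - a) → S05H27.SimN (h + h) x (a - b) := by
    intro x hx
    rcases max_choice (a - b) (b - a) with h1 | h1
    · exact ⟨0, Or.inl (by rw [hx, h1]; simp)⟩
    · exact ⟨0, Or.inr (by rw [hx, h1]; simp)⟩
  have key2 : ∀ x : G, x = min (a + b) (h + h - a - b) → S05H27.SimN (h + h) x (a + b) := by
    intro x hx
    rcases min_choice (a + b) (h + h - a - b) with h1 | h1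
    · exact ⟨0, Or.inl (by rw [hx, h1]; simp)⟩
    · exact ⟨1, Or.inr (by rw [hx, h1, one_smul]; abel)⟩
  rcases hr with ⟨h1, h2⟩ | ⟨h1, h2⟩
  · exact Or.inr ⟨key2 _ h2, key1 _ h1⟩
  · exact Or.inl ⟨key2 _ h2, key1 _ h1⟩

lemma rho_pairRel (N : NodalEq W s d b) (C : V.Core d b h) :
    S05H27.PairRel (rho (W := W) V s h) (h + h) := fun P Q => rel_simN (rho_rel N C P Q)

omit [CharZero K] in
lemma rho_eq_zero_iff_notM (hh : 0 < h) {T : W.Point} (hT : T ≠ 0) (h0 : rho V s h T = 0) :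
    V.NotM (xi s T) := by
  rw [rho_of_ne hT] at h0
  by_cases hx : xi s T = 0
  · rw [AVal.cl_of_ge hh (Or.inl hx)] at h0
    exact absurd h0 hh.ne'
  · refine ⟨hx, ?_⟩
    rw [AVal.cl_of_ex (AVal.ex_of_ne hx)] at h0
    grind

end

section Final

variable {K : Type*} [Field K] [DecidableEq K] [CharZero K]
  {Γ₀ : Type*} [LinearOrderedCommGroupWithZero Γ₀]

/-- (C*): the nodal translation theorem, stated for a multiplicative valuation. -/
theorem nodal_translate (v : Valuation K Γ₀) (W : WeierstrassCurve.Affine K) (s d b e : K)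
    (p : ℕ) (N : NodalEq W s d b)
    (h2 : v 2 = 1) (hb : v b = 1) (hd : v d = v e ^ p) (he : v e < 1) (he0 : e ≠ 0)
    (hp : Odd p)
    (X : W.Point) (hX : X ≠ 0) (hpX : p • X = 0) (hξ : v (xi s X) < 1) :
    ∃ M : ℕ, 0 < M ∧ M < p ∧ ∀ Z : W.Point, Z ≠ 0 → xi s Z = e ^ M →
      ((X - Z = 0 ∨ 1 ≤ v (xi s (X - Z))) ∨ (X + Z = 0 ∨ 1 ≤ v (xi s (X + Z)))) := by
  classical
  set V := S05H27.ofValuation v with hV
  have hp0 : 0 < p := hp.pos
  have hπ : 0 < V.w e := (S05H27.zero_lt_w_iff v he0).mpr he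
  have hdex : V.Ex d (p • V.w e) := (S05H27.eq_pow_iff_ex v he0 p).mp hd
  set h := p • V.w e with hh_def
  have hh : 0 < h := nsmul_pos hπ hp0.ne'
  have C : V.Core d b h :=
    ⟨(S05H27.eq_one_iff_ex v 2).mp h2, (S05H27.eq_one_iff_ex v b).mp hb, hdex, hh⟩
  -- torsion gives integrality of rho X
  obtain ⟨m, hm⟩ := S05H27.rho_pow_of_torsion (rho (W := W) V s h) (h + h) rho_zero
    (rho_pairRel N C) X p hpX
  have hN : h + h = (2 * p * 1) • V.w e := by
    rw [hh_def, mul_one, mul_smul, two_nsmul]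
  rw [hN] at hm
  have hroot := S05H27.root_extract (rho V s h X) (V.w e) p 1 hp0 m hm
  -- rho X > 0
  have hgt : V.Gt (xi s X) 0 := (S05H27.lt_one_iff_gt v _).mp hξ
  have hρpos : 0 < rho V s h X := by
    rw [rho_of_ne hX]
    by_cases hx : xi s X = 0
    · rw [AVal.cl_of_ge hh (Or.inl hx)]; exact hh
    · rw [AVal.cl_of_ex (AVal.ex_of_ne hx)]
      have := hgt.lt_of_ne hx
      grind
  obtain ⟨M, hM0, hM⟩ := S05H27.exists_nat_of_zsmul_pos hπ hρpos hroot
  have hρle : rho V s h X ≤ h := rho_le hh X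
  -- M ≤ p and M ≠ p
  have hMle : M ≤ p := by
    by_contra hcon
    rw [not_le] at hcon
    have : p • V.w e < M • V.w e := nsmul_lt_nsmul_left hπ hcon
    rw [← hM] at this
    exact absurd hρle (not_le.mpr this)
  have hMne : M ≠ p := by
    intro hMp
    -- M • π = (2m) • π forces (M : ℤ) = 2 m
    have h1 : ((M : ℤ) - 2 * 1 * m) • V.w e = 0 := by
      rw [sub_smul, natCast_zsmul, ← hM, hroot]
      simp
    have h3 : (M : ℤ) - 2 * 1 * m = 0 := by
      rcases smul_eq_zero.mp h1 with h4 | h4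
      · exact h4
      · exact absurd h4 hπ.ne'
    have : (p : ℤ) = 2 * m := by rw [← hMp]; linarith
    obtain ⟨k, hk⟩ := hp
    omega
  refine ⟨M, hM0, lt_of_le_of_ne hMle hMne, ?_⟩
  intro Z hZ hZξ
  have hZex : V.Ex (xi s Z) (M • V.w e) := by
    rw [hZξ]; exact (AVal.ex_of_ne he0).pow M
  have hρZ : rho V s h Z = rho V s h X := by
    rw [rho_of_ne hZ, AVal.cl_of_ex hZex, hM]
    rw [hM] at hρpos hρle
    grind
  have hrel := rho_rel N C X Z
  rw [hρZ] at hrel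
  have key : ∀ T : W.Point, rho V s h T = 0 → (T = 0 ∨ 1 ≤ v (xi s T)) := by
    intro T hT
    by_cases hT0 : T = 0
    · exact Or.inl hT0
    · exact Or.inr ((S05H27.one_le_iff_notM v _).mpr (rho_eq_zero_iff_notM hh hT0 hT))
  rcases hrel with ⟨h1, _⟩ | ⟨h1, _⟩
  · right
    apply key
    rw [h1]; grind
  · left
    apply key
    rw [h1]; grind

end Final

end S05H65
end MergeWrap_S05_H65_Translate
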